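/-
Project BAD, layer L-MOD, blocks PRE and CUSP (sub-architect helper38).  SKELETON: exact statements
of all nodes; WIP, never import from landed files.  Every node goes to the file named in its header.
-/
import Mathlib
import Fermat.Agent.S18.Defs
import Fermat.Agent.S18.Chart.Overlap
import Fermat.Agent.S36.BP.Defs
import Fermat.Agent.BAD.Model.Defs

set_option autoImplicit false

noncomputable section

namespace Fermat.Agent.BAD.Model

open Fermat.Agent.S18 Fermat.Agent.S36.BP IntermediateField Polynomial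

variable {K₀ F : Type*} [Field K₀] [Field F] [Algebra K₀ F]
variable {A₀ : ValuationSubring K₀} {q : ℕ} {x : F} {V : Fin 3 → ValuationSubring F} {ϖm : F}

/-! ## Block PRE : closed points of a chart of a `PreModel` -/

/-! ### PRE-0 `BAD/Model/Pre/Inv.lean` -/

theorem PreModel.inv (P : PreModel A₀ q x V ϖm) : PreModel A₀ q x⁻¹ V ϖm := by
  sorry

/-! ### PRE-1 `BAD/Model/Pre/IsPt.lean` -/

theorem PreModel.chart_le (P : PreModel A₀ q x V ϖm) (c : Fin 3) :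
    ∀ b ∈ chart A₀.toSubring x, b ∈ V c := by
  sorry

theorem PreModel.isPt (P : PreModel A₀ q x V ϖm) (𝔫 : Ideal (chart A₀.toSubring x))
    [𝔫.IsMaximal] (h𝔫 : (q : chart A₀.toSubring x) ∈ 𝔫) :
    IsPt A₀ (locSub (chart A₀.toSubring x) 𝔫) := by
  sorry

theorem PreModel.qep_pow (P : PreModel A₀ q x V ϖm) (k : ℕ) (y : F)
    (h : (q : F) ^ k * y ∈ chart A₀.toSubring x) (hV : ∀ c, y ∈ V c) :
    y ∈ chart A₀.toSubring x := by
  sorry

/-! ### PRE-2 `BAD/Model/Pre/Denominator.lean` -/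

theorem PreModel.exists_denominator (P : PreModel A₀ q x V ϖm) (y : F) :
    ∃ d ∈ polyRing A₀.toSubring x, (∀ c, (V c).valuation d = 1) ∧
      ∃ k : ℕ, (q : F) ^ k * (d * y) ∈ chart A₀.toSubring x := by
  sorry

/-! ### PRE-3 `BAD/Model/Pre/Loc.lean` -/

theorem PreModel.exists_sep (P : PreModel A₀ q x V ϖm) (c : Fin 3) :
    ∃ h ∈ chart A₀.toSubring x, (V c).valuation h = 1 ∧ ∀ c', c' ≠ c → (V c').valuation h < 1 := by
  sorry

theorem PreModel.loc (P : PreModel A₀ q x V ϖm) (c : Fin 3) :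
    ∀ y ∈ V c, ∃ s ∈ chart A₀.toSubring x, (V c).valuation s = 1 ∧
      s * y ∈ chart A₀.toSubring x := by
  sorry

/-! ### PRE-4 `BAD/Model/Pre/PtBase.lean` -/

theorem PreModel.ptBase (P : PreModel A₀ q x V ϖm) (𝔫 : Ideal (chart A₀.toSubring x))
    [𝔫.IsMaximal] (h𝔫 : (q : chart A₀.toSubring x) ∈ 𝔫) :
    PtBase A₀ q V (locSub (chart A₀.toSubring x) 𝔫) := by
  sorry

/-! ### PRE-5 `BAD/Model/Pre/Overlap.lean` -/

/-- a closed point of the second chart at which `x⁻¹` does not vanish is a closed point of the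
first chart. -/
theorem PreModel.exists_point_of_inv_notMem (P : PreModel A₀ q x V ϖm)
    (𝔫 : Ideal (chart A₀.toSubring x⁻¹)) [𝔫.IsMaximal] (h𝔫 : (q : chart A₀.toSubring x⁻¹) ∈ 𝔫)
    (hx : (⟨x⁻¹, self_mem_chart _⟩ : chart A₀.toSubring x⁻¹) ∉ 𝔫) :
    ∃ (𝔪 : Ideal (chart A₀.toSubring x)) (h𝔪 : 𝔪.IsMaximal), (q : chart A₀.toSubring x) ∈ 𝔪 ∧
      (haveI := h𝔪; locSub (chart A₀.toSubring x) 𝔪) = locSub (chart A₀.toSubring x⁻¹) 𝔫 := by
  sorry

/-! ## Block CUSP : the local analysis at a point `R` with `s = 1/j ∈ rad R` -/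

variable {R : Subring F} {c : ℕ → ℕ → K₀} {S S' T s s' s'' : F}

/-! ### CUSP-0 `BAD/Model/Cusp/Eps.lean` -/

theorem Rel.symm (h : Rel q c S T) : Rel q (fun a b => c b a) T S := by
  sorry

theorem eps_mem (hc : ∀ a b, algebraMap K₀ F (c a b) ∈ R) (hS : S ∈ R) (hT : T ∈ R) :
    eps q c S T ∈ R := by
  sorry

theorem rUnit_eps (hR : IsPt A₀ R) (hc : ∀ a b, c a b ∈ A₀) (h0 : A₀.valuation (c 0 0) = 1)
    (hS : S ∈ rad R) (hT : T ∈ rad R) : RUnit R (eps q c S T) := by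
  sorry

theorem exists_eps_sub_eps (hc : ∀ a b, algebraMap K₀ F (c a b) ∈ R) (hS : S ∈ R) (hS' : S' ∈ R)
    (hT : T ∈ R) : ∃ D ∈ R, eps q c S T - eps q c S' T = (S - S') * D := by
  sorry

/-! ### CUSP-1 `BAD/Model/Cusp/MemRad.lean` -/

theorem Rel.mem_rad (hR : IsPt A₀ R) (hc : ∀ a b, c a b ∈ A₀) (h : Rel q c S T)
    (hS : S ∈ rad R) : T ∈ rad R := by
  sorry

/-! ### CUSP-2 `BAD/Model/Cusp/Dichotomy.lean` -/

theorem Rel.dichotomy (hR : IsPt A₀ R) (hq : 2 ≤ q) (hc : ∀ a b, c a b ∈ A₀)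
    (h0 : A₀.valuation (c 0 0) = 1) (h : Rel q c S T) (hS0 : S ≠ 0) (hT0 : T ≠ 0)
    (hS : S ∈ rad R) :
    (RUnit R (S ^ q / T) ∧ T ^ q / S ∈ rad R) ∨ (RUnit R (T ^ q / S) ∧ S ^ q / T ∈ rad R) := by
  sorry

theorem away_of_mem_rad (hR : IsPt A₀ R) {W : ValuationSubring F} {e : F} (he : e ∈ rad R)
    (hW : W.valuation (e - 1) < 1) : Away R W := by
  sorry

theorem CuspData.trichotomy (hq : 2 ≤ q) (hR : PtBase A₀ q V R) (D : CuspData A₀ q V c s s' s'')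
    (hs : s ∈ rad R) :
    Type0 V R q s s' s'' ∨ Type1 V R q s s' s'' ∨ Type2 V R q s s' s'' := by
  sorry

/-! ### CUSP-3 `BAD/Model/Cusp/Through.lean` -/

theorem GoodBelow.through (hR : IsPt A₀ R) {W : ValuationSubring F} {E : Subfield F}
    (hL : LeLoc R W) (hG : GoodBelow W E R) : Through R W := by
  sorry

theorem princ_of_unram (hR : PtBase A₀ q V R) (i : Fin 3) (hU : IsUnif (V i) (q : F))
    (hA : ∀ i', i' ≠ i → Away R (V i')) : Princ R (V i) := by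
  sorry

/-! ### CUSP-4 `BAD/Model/Cusp/Identity.lean` -/

theorem exists_binomial_poly (hq : q.Prime) :
    ∃ U : ℤ[X], (1 + X) ^ q - 1 = X * (X ^ (q - 1) + C (q : ℤ) * U) ∧ U.eval 0 = 1 := by
  sorry

/-- the key identity: subtract the two modular equations `Φ(s, s') = 0 = Φ(s'', s')`. -/
theorem key_identity (hs : s ≠ 0) (hs' : s' ≠ 0) (hs'' : s'' ≠ 0) (hne : s ≠ s'')
    (h : Rel q c s s') (h'' : Rel q c s'' s') {D u : F}
    (hD : eps q c s s' - eps q c s'' s' = (s - s'') * D)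
    (hu : (s / s'') ^ q - 1 = (s / s'' - 1) * ((s / s'' - 1) ^ (q - 1) + (q : F) * u)) :
    s'' ^ q / s' * ((s / s'' - 1) ^ (q - 1) + (q : F) * u) = s' ^ q / s - s'' * D := by
  sorry

/-! ### CUSP-5 `BAD/Model/Cusp/Mid.lean` -/

/-- at a cuspidal point of the middle component, `z = j''/j - 1 ... = s/s'' - 1` satisfies
`z^(q-1) = q * unit`. -/
theorem Type1.unit (hb : BaseHyp A₀ q) (hU1 : IsUnif (V 1) ϖm)
    (hram : (V 1).valuation ϖm ^ (q - 1) = (V 1).valuation (q : F))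
    (hR : PtBase A₀ q V R) (D : CuspData A₀ q V c s s' s'') (hs : s ∈ rad R)
    (hT : Type1 V R q s s' s'') :
    s / s'' - 1 ∈ R ∧ (V 1).valuation (s / s'' - 1) < 1 ∧
      RUnit R ((s / s'' - 1) ^ (q - 1) / (q : F)) := by
  sorry

theorem Type1.princ (hb : BaseHyp A₀ q) (hU1 : IsUnif (V 1) ϖm)
    (hram : (V 1).valuation ϖm ^ (q - 1) = (V 1).valuation (q : F))
    (hR : PtBase A₀ q V R) (D : CuspData A₀ q V c s s' s'') (hs : s ∈ rad R)
    (hT : Type1 V R q s s' s'') : Princ R (V 1) := by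
  sorry

/-! ### CUSP-6 `BAD/Model/Cusp/Main.lean` (helper38) -/

theorem PtBase.leLoc_of_away (hR : PtBase A₀ q V R) (i : Fin 3)
    (hA : ∀ i', i' ≠ i → Away R (V i')) : LeLoc R (V i) := by
  rcases hR.leLoc_or_away i with h | h
  · exact h
  · exfalso
    apply hR.not_all_away
    intro i'
    by_cases hi : i' = i
    · exact hi ▸ h
    · exact hA i' hi

/-- **The cusp theorem.** -/
theorem CuspData.ptHyp (hb : BaseHyp A₀ q) (hU0 : IsUnif (V 0) (q : F)) (hU1 : IsUnif (V 1) ϖm)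
    (hU2 : IsUnif (V 2) (q : F))
    (hram : (V 1).valuation ϖm ^ (q - 1) = (V 1).valuation (q : F))
    (hR : PtBase A₀ q V R) (D : CuspData A₀ q V c s s' s'') (hs : s ∈ rad R)
    (E : Fin 3 → Subfield F) (hG : ∀ i, LeLoc R (V i) → GoodBelow (V i) (E i) R)
    (Eα Eβ : Subfield F) (Nα Nβ : F →* F) : PtHyp V Eα Eβ Nα Nβ R := by
  have main : ∀ i : Fin 3, (∀ i', i' ≠ i → Away R (V i')) → Princ R (V i) →
      PtHyp V Eα Eβ Nα Nβ R := by
    intro i hA hP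
    have hL := hR.leLoc_of_away i hA
    have hT : Through R (V i) := (hG i hL).through hR.isPt hL
    refine ⟨fun i' => ?_, ⟨i, hT, hP⟩, Or.inl ⟨i, hA⟩⟩
    by_cases hi : i' = i
    · exact Or.inl (hi ▸ hT)
    · exact Or.inr (hA i' hi)
  rcases D.trichotomy hb.prime.two_le hR hs with h | h | h
  · have hA : ∀ i', i' ≠ (0 : Fin 3) → Away R (V i') := by
      intro i' hi
      fin_cases i'
      · exact absurd rfl hi
      · exact h.2.2.1
      · exact h.2.2.2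
    exact main 0 hA (princ_of_unram hR 0 hU0 hA)
  · have hA : ∀ i', i' ≠ (1 : Fin 3) → Away R (V i') := by
      intro i' hi
      fin_cases i'
      · exact h.2.2.1
      · exact absurd rfl hi
      · exact h.2.2.2
    exact main 1 hA (h.princ hb hU1 hram hR D hs)
  · have hA : ∀ i', i' ≠ (2 : Fin 3) → Away R (V i') := by
      intro i' hi
      fin_cases i'
      · exact h.2.2.1
      · exact h.2.2.2
      · exact absurd rfl hi
    exact main 2 hA (princ_of_unram hR 2 hU2 hA)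

/-- chart form: the field `pts₂` of `S36.BP.Model` from `pts₁` and the cusp theorem. -/
theorem PreModel.pts₂_of (P : PreModel A₀ q x V ϖm) (Eα Eβ : Subfield F) (Nα Nβ : F →* F)
    (h₁ : ∀ (𝔪 : Ideal (chart A₀.toSubring x)) [𝔪.IsMaximal], (q : chart A₀.toSubring x) ∈ 𝔪 →
      PtHyp V Eα Eβ Nα Nβ (locSub (chart A₀.toSubring x) 𝔪))
    (h₂ : ∀ (𝔫 : Ideal (chart A₀.toSubring x⁻¹)) [𝔫.IsMaximal],
      (q : chart A₀.toSubring x⁻¹) ∈ 𝔫 →
      (⟨x⁻¹, self_mem_chart _⟩ : chart A₀.toSubring x⁻¹) ∈ 𝔫 →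
      PtHyp V Eα Eβ Nα Nβ (locSub (chart A₀.toSubring x⁻¹) 𝔫))
    (𝔫 : Ideal (chart A₀.toSubring x⁻¹)) [𝔫.IsMaximal] (h𝔫 : (q : chart A₀.toSubring x⁻¹) ∈ 𝔫) :
    PtHyp V Eα Eβ Nα Nβ (locSub (chart A₀.toSubring x⁻¹) 𝔫) := by
  by_cases hx : (⟨x⁻¹, self_mem_chart _⟩ : chart A₀.toSubring x⁻¹) ∈ 𝔫
  · exact h₂ 𝔫 h𝔫 hx
  · obtain ⟨𝔪, h𝔪, hq, e⟩ := P.exists_point_of_inv_notMem 𝔫 h𝔫 hx
    rw [← e]
    exact h₁ 𝔪 hq

/-! ## Block INPUT : adaptors for the instance -/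

/-! ### IN-1 `BAD/Model/Input/Rel.lean` -/

/-- from the modular equation `Φ(j, j') = 0`, `Φ = X^(q+1) + Y^(q+1) + ∑_{a,b ≤ q} c' a b X^a Y^b`. -/
theorem rel_of_modEq {c' : ℕ → ℕ → K₀} {j j' : F} (hj : j ≠ 0) (hj' : j' ≠ 0)
    (h : j ^ (q + 1) + j' ^ (q + 1) + ∑ a ∈ Finset.range (q + 1), ∑ b ∈ Finset.range (q + 1),
      algebraMap K₀ F (c' a b) * j ^ a * j' ^ b = 0) :
    Rel q (fun a b => c' (q - a) (q - b)) j⁻¹ j'⁻¹ := by
  sorry

/-- from Kronecker's congruence `Φ = (X^q - Y)(X - Y^q) + q Ψ`, `deg_X Ψ, deg_Y Ψ ≤ q`. -/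
theorem exists_rel_of_kronecker (hb : BaseHyp A₀ q) {ψ : ℕ → ℕ → K₀} (hψ : ∀ a b, ψ a b ∈ A₀) :
    ∃ c : ℕ → ℕ → K₀, (∀ a b, c a b ∈ A₀) ∧ A₀.valuation (c 0 0) = 1 ∧
      ∀ j j' : F, j ≠ 0 → j' ≠ 0 →
        (j ^ q - j') * (j - j' ^ q) + (q : F) * ∑ a ∈ Finset.range (q + 1),
          ∑ b ∈ Finset.range (q + 1), algebraMap K₀ F (ψ a b) * j ^ a * j' ^ b = 0 →
        Rel q c j⁻¹ j'⁻¹ := by
  sorry

/-! ### IN-2 `BAD/Model/Input/UInv.lean` (Mathlib only) -/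

/-- Seidenberg's `u, u⁻¹` lemma: if `y` is a root of a polynomial over the integrally closed local
ring `R` one of whose coefficients is a unit, then `y ∈ R` or `y⁻¹ ∈ R`. -/
theorem mem_or_inv_mem_of_aeval_eq_zero (hR : IsPt A₀ R) {y : F} (p : F[X])
    (hp : ∀ i, p.coeff i ∈ R) (hu : ∃ i, RUnit R (p.coeff i)) (h : p.eval y = 0) :
    y ∈ R ∨ y⁻¹ ∈ R := by
  sorry

/-! ### IN-3 `BAD/Model/Input/GoodBelow.lean` -/

/-- `GoodBelow` from a good chart (KL-A: `S18.IsChart`) of the lower level. -/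
theorem goodBelow_of_isChart {F₀ : Type*} [Field F₀] (ι : F₀ →+* F) {Ow : ValuationSubring F₀}
    {ϖ : F₀} {B₀ : Subring F₀} (hU : IsUnif Ow ϖ) (hB : IsChart Ow ϖ B₀) {W : ValuationSubring F}
    (hW : W.comap ι = Ow) (hd : ∀ y ∈ W, ∃ y₀ : F₀, W.valuation (ι y₀ - y) < 1)
    (hR : IsPt A₀ R) (hle : ∀ r ∈ R, r ∈ W) (hBR : ∀ b ∈ B₀, ι b ∈ R) :
    GoodBelow W ι.fieldRange R := by
  sorry

end Fermat.Agent.BAD.Model
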