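/-
Project BAD, layer MODEL (architect helper98).  SKELETON of the ABSTRACT part: exact statements of
the nodes.  Every node goes to its own file `Fermat/Agent/BAD/Model/<Name>.lean`.  Never imported
by a graded file.  All nodes: Mathlib + `S36/BP/*` (incl. the landed toolbox `S36/BP/Build/*`).
-/
import Fermat.Agent.BAD.Model.Inst
import Fermat.Agent.S36.BP.Build.LocalCrit

set_option autoImplicit false

namespace Fermat.Agent.BAD.Model

open Fermat.Agent.S18 Fermat.Agent.S36.BP Fermat.Agent.S36.BP.Build IntermediateField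

variable {F : Type*} [Field F] {K₀ : Type*} [Field K₀] [Algebra K₀ F]
  {A₀ : ValuationSubring K₀} {q : ℕ} {V : Fin 3 → ValuationSubring F} {R : Subring F}

/-! ### A1  `PreLoc.lean` : `Model.isPt`, `Model.qep_loc` without a `Model` (copy the proofs of
`S36/BP/Loc.lean`, `S36/BP/LocQep.lean`, which only use the fields listed here) -/

section PreLoc

variable {x : F}

theorem isPt_of_base (hb : BaseHyp A₀ q) (htr : Transcendental K₀ x)
    (hfin : FiniteDimensional K₀⟮x⟯ F) (𝔫 : Ideal (chart A₀.toSubring x)) [𝔫.IsMaximal]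
    (h𝔫 : (q : chart A₀.toSubring x) ∈ 𝔫) : IsPt A₀ (locSub (chart A₀.toSubring x) 𝔫) := by
  sorry

theorem qep_loc_of (hB : ∀ c, ∀ b ∈ chart A₀.toSubring x, b ∈ V c)
    (hU : ∀ c, ∃ ϖ : F, IsUnif (V c) ϖ)
    (hqep : ∀ y : F, (q : F) * y ∈ chart A₀.toSubring x → (∀ c, y ∈ V c) →
      y ∈ chart A₀.toSubring x)
    (𝔫 : Ideal (chart A₀.toSubring x)) [𝔫.IsMaximal]
    (hta : ∀ c, Through (locSub (chart A₀.toSubring x) 𝔫) (V c) ∨
      Away (locSub (chart A₀.toSubring x) 𝔫) (V c)) :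
    LocQep q V (locSub (chart A₀.toSubring x) 𝔫) := by
  sorry

end PreLoc

/-! ### A2  `NC.lean` : the non-cuspidal points -/

/-- **Non-cuspidal points.**  Put `Ξ = X₂ / X₁ = X₂ Y₁ / q²` (`∈ R` by `mem_of`).
Incidence (`runit_of`): `Away R (V 2) → RUnit R X₁`, `Away R (V 0) → RUnit R Y₂`,
`Away R (V 1) → RUnit R Ξ` (`q² / Ξ = X₁ Y₂`).  If `V 0, V 1` pass through `R`: `Y₂ ∈ rad R`,
`Y₂ - X₁ ∈ rad R` (`Q3`), so `X₁ ∈ rad R` and `V 2` passes; same for `V 1, V 2`; if `V 0, V 2` pass: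
`X₁ ∈ rad R`, `Ξ - X₁ ^ (q-1) ∈ rad R` (`Q1`), so `V 1` passes.  One component: `Princ` with `z = q`
(`c = 0, 2`) or `z = T` (`c = 1`: `w = T^(q-1) X₁ / q ∈ R` by `hqep`, `w + 1 ∈ rad R` so `w` is a
unit, `q / T = T^(q-2) X₁ / w ∈ R`, `T` is a uniformiser of `V 1` by `ram1`).  Three components:
`Princ R (V 2)` with `z` from `thick`. -/
theorem ptHyp_of_nc {ϖm T X₁ Y₁ X₂ Y₂ : F} {Eα Eβ : Subfield F} {Nα Nβ : F →* F} (hq : q.Prime)
    (hq0 : (q : F) ≠ 0) (hadd : ∀ a ∈ rad R, ∀ b ∈ rad R, a + b ∈ rad R)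
    (hta : ∀ c, Through R (V c) ∨ Away R (V c)) (hqep : LocQep q V R) (hqR : (q : F) ∈ rad R)
    (unif0 : IsUnif (V 0) (q : F)) (unif1 : IsUnif (V 1) ϖm) (unif2 : IsUnif (V 2) (q : F))
    (ram1 : (V 1).valuation ϖm ^ (q - 1) = (V 1).valuation (q : F))
    (hE : VertElts q V T X₁ Y₁ X₂ Y₂)
    (hX₁ : X₁ ∈ R) (hY₁ : Y₁ ∈ R) (hX₂ : X₂ ∈ R) (hY₂ : Y₂ ∈ R) (hT : T ∈ R)
    (thick : (∀ c, Through R (V c)) → ∃ z z' : F, z ∈ R ∧ z' ∈ R ∧ RUnit R (z * z' / (q : F)) ∧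
      (V 2).valuation z < 1 ∧ (V 2).valuation z' = 1 ∧ (V 0).valuation z = 1 ∧
      (V 1).valuation z = 1)
    (hα : (∀ c, Through R (V c)) → HalfPt Eα Nα (V 0) (V 1) R)
    (hβ : (∀ c, Through R (V c)) → HalfPt Eβ Nβ (V 2) (V 1) R) :
    PtHyp V Eα Eβ Nα Nβ R := by
  sorry

/-! ### A3  `Cusp.lean` : the cuspidal points -/

/-- **Cuspidal points.**  `u = 1/j`, `u'' = 1/j''`, `y = j''/j`.
`y ∈ rad R`: `V 0`, `V 1` are away (`c0`, `c1`; otherwise `1 ∈ rad R`), `Princ R (V 2)` with `z = q`.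
`y⁻¹ ∈ rad R`: `V 1`, `V 2` are away, `Princ R (V 0)` with `z = q`.
`y - 1 ∈ rad R`: `V 0`, `V 2` are away, `Princ R (V 1)` with `z = y - 1`
(`w = z^(q-1)/q ∈ R` by `hqep`, `w - ρ ∈ rad R`, so `w` is a unit). -/
theorem ptHyp_of_cusp {ϖm u u'' y ρ : F} {Eα Eβ : Subfield F} {Nα Nβ : F →* F} (hq : q.Prime)
    (hq0 : (q : F) ≠ 0) (hadd : ∀ a ∈ rad R, ∀ b ∈ rad R, a + b ∈ rad R)
    (hta : ∀ c, Through R (V c) ∨ Away R (V c)) (hqep : LocQep q V R) (hqR : (q : F) ∈ rad R)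
    (unif0 : IsUnif (V 0) (q : F)) (unif1 : IsUnif (V 1) ϖm) (unif2 : IsUnif (V 2) (q : F))
    (ram1 : (V 1).valuation ϖm ^ (q - 1) = (V 1).valuation (q : F))
    (hu : u ∈ rad R) (hu'' : u'' ∈ rad R)
    (htri : y ∈ rad R ∨ y - 1 ∈ rad R ∨ y⁻¹ ∈ rad R)
    (c0 : (V 0).valuation (y * u ^ (q ^ 2 - 1) - 1) < 1)
    (c1 : (V 1).valuation (y - 1) < 1)
    (c2 : (V 2).valuation (y - u'' ^ (q ^ 2 - 1)) < 1)
    (hρ : RUnit R ρ) (hρ' : (V 1).valuation ((y - 1) ^ (q - 1) / (q : F) - ρ) < 1) :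
    PtHyp V Eα Eβ Nα Nβ R := by
  sorry

/-! ### A4  `NormUnit.lean` : the field `norm_unit` of `HalfPt` -/

/-- If `N b ≡ b ^ q` on a component `W` through `𝔫`, the norm preserves the units of `B_𝔫`. -/
theorem norm_unit_of_cong (B : Subring F) (W : ValuationSubring F)
    (N : F →* F) (hN : ∀ b ∈ B, N b ∈ B) (hres : ∀ b ∈ B, W.valuation (N b - b ^ q) < 1)
    (𝔫 : Ideal B) [𝔫.IsMaximal] (h𝔫 : ∀ b : B, W.valuation (b : F) < 1 → b ∈ 𝔫) :
    ∀ ε : F, RUnit (locSub B 𝔫) ε → RUnit (locSub B 𝔫) (N ε) := by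
  sorry

/-- `Half.res_b` + `Half.ord_b` give the congruence for all elements of `Vb`. -/
theorem Half.cong_pow {ϖm : F} {E : Subfield F} {N : F →* F} {Va Vm Vb : ValuationSubring F}
    (H : Half q ϖm E N Va Vm Vb) (hq : 0 < q) {y : F} (hy : y ∈ Vb) :
    Vb.valuation (N y - y ^ q) < 1 := by
  sorry

/-! ### A5  `Thick.lean` : thickness one at the crossing points, by the derivative trick -/

/-- **Thickness one.**  `W = V 0`; `ρ : W → Λ` is the reduction of `q`-expansions (`Λ = k((q))`),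
`θ = q d/dq`.  `a = t' - t ^ q`, `b = t - t' ^ q`, `X₁ = q dt/dt'`.
`hD1` is the reduction of `θ ((t' - t^q)/q) = (θ t)(q^q) - t^(q-1) θ t` and `X₁ = θ t / (θ t)(q^q)`;
`hD2` says that `d/dt` preserves the local ring of the component `W` at the point.
Proof.  (1) `t - c` (`c ∈ A₀`, `t - c ∈ rad R`) is a uniformiser of `R / P`, `P = R ∩ 𝔪_W`: write
`t - c ≡ r τ^e`, apply `hD2`.  (2) `b ≡ t - t^(q²) ≡ (t - c) · unit` mod `P`.
(3) if `δ = a b / q ∈ rad R`, then `δ ≡ r₁ (t - c)`, so `a / q ≡ r₂ ∈ R` mod `𝔪_W`, and by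
`hD1`, `hD2`: `X₁ (r₂' + t^(q-1)) ≡ 1` mod `P`, contradiction with `X₁ ∈ rad R`. -/
theorem thick_of_derivation {Λ : Type*} [Field Λ] (W : ValuationSubring F) (ρ : W →+* Λ)
    (hρ : ∀ y : W, ρ y = 0 ↔ W.valuation (y : F) < 1) (θ : Derivation ℤ Λ Λ)
    (hq : q.Prime) (hq0 : (q : F) ≠ 0) (hqW : W.valuation (q : F) < 1)
    (hR : IsPt A₀ R) (hle : R ≤ W.toSubring)
    (hdvr : ∃ τ ∈ rad R, ∀ y ∈ rad R, ∃ r ∈ R, W.valuation (y - r * τ) < 1)
    {t t' X₁ : F} (ht : t ∈ R) (ht' : t' ∈ R) (hX₁ : X₁ ∈ rad R)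
    (ha : (t' - t ^ q) / (q : F) ∈ W) (hb : t - t' ^ q ∈ rad R)
    (hδ : (t' - t ^ q) * (t - t' ^ q) / (q : F) ∈ R)
    (htr : ∀ c ∈ A₀, W.valuation (t - algebraMap K₀ F c) = 1)
    (hθt : θ (ρ ⟨t, hle ht⟩) ≠ 0)
    (hD1 : θ (ρ ⟨_, ha⟩) * ρ ⟨X₁, hle hX₁.1⟩ =
      θ (ρ ⟨t, hle ht⟩) * (1 - ρ ⟨t, hle ht⟩ ^ (q - 1) * ρ ⟨X₁, hle hX₁.1⟩))
    (hD2 : ∀ r : R, ∃ r' : R, θ (ρ (Subring.inclusion hle r)) =
      θ (ρ ⟨t, hle ht⟩) * ρ (Subring.inclusion hle r')) :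
    RUnit R ((t' - t ^ q) * (t - t' ^ q) / (q : F)) := by
  sorry

/-! ### A6  `Seidenberg.lean` : the `(u, u⁻¹)`-lemma -/

/-- `R` local and integrally closed in `F`; if `y` is a root of a polynomial over `R` with a unit
coefficient then `y ∈ R` or `y⁻¹ ∈ R` (Kaplansky, Thm 67; induction on the degree: if the leading
coefficient `a₀` is not a unit, `a₀ y` is integral, hence in `R`; lower the degree). -/
theorem seidenberg (hadd : ∀ a ∈ rad R, ∀ b ∈ rad R, a + b ∈ rad R)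
    (hcl : ∀ y : F, IsIntegral R y → y ∈ R) (y : F) (p : Polynomial R)
    (hp : Polynomial.aeval y p = 0) (hu : ∃ i, RUnit R (p.coeff i : F)) : y ∈ R ∨ y⁻¹ ∈ R := by
  sorry

/-- `J` integral over `A₀[J'']` and `J⁻¹ ∈ rad R` imply `J''⁻¹ ∈ rad R` provided `J''` is integral
over `A₀[J]` (not needed).  (Divide the equation of `J` over `A₀[J'']` by `J ^ m`: a polynomial relation for `J''`
over `R` with constant coefficient in `1 + rad R`; `seidenberg`; `J'' ∉ R` since otherwise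
`J ∈ R`.) -/
theorem inv_mem_rad_of_integral (hR : IsPt A₀ R) {J J'' : F} (h1 : J ∈ chart A₀.toSubring J'')
    (hJ : J⁻¹ ∈ rad R) : J''⁻¹ ∈ rad R := by
  sorry

/-! ### A7  `Change.lean` : change of coordinate for the closed points -/

/-- the closed points only depend on the coordinate up to "`x' ∈ R` or `x'⁻¹ ∈ R`".
Let `ξ' ∈ {x', x'⁻¹}` be in `R`, `B' = chart A₀ ξ' ⊆ R`, `𝔫' = B' ∩ rad R` (maximal by `IsPt.res`),
`R' = locSub B' 𝔫' ⊆ R`, `rad R' = R' ∩ rad R`.  `R'` is an `IsPt` (A1), so `x ∈ R'` or `x⁻¹ ∈ R'`; if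
`R` comes from `chart A₀ x` and only `x⁻¹ ∈ R'`, then `x⁻¹` is a unit of `R`, hence of `R'`.  So the
chart of `R` is contained in `R'` (integrally closed), and `R ⊆ R'`. -/
theorem isMPt_change (hb : BaseHyp A₀ q) {x x' : F} (htr : Transcendental K₀ x)
    (hfin : FiniteDimensional K₀⟮x⟯ F) (htr' : Transcendental K₀ x')
    (hfin' : FiniteDimensional K₀⟮x'⟯ F)
    (h : ∀ R : Subring F, IsPt A₀ R → (x ∈ R ∨ x⁻¹ ∈ R) → (x' ∈ R ∨ x'⁻¹ ∈ R))
    (h' : ∀ R : Subring F, IsPt A₀ R → (x' ∈ R ∨ x'⁻¹ ∈ R) → (x ∈ R ∨ x⁻¹ ∈ R))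
    (hR : IsMPt A₀ q x R) : IsMPt A₀ q x' R := by
  sorry

theorem IsMPt.isPt (hb : BaseHyp A₀ q) {x : F} (htr : Transcendental K₀ x)
    (hfin : FiniteDimensional K₀⟮x⟯ F) (hR : IsMPt A₀ q x R) : IsPt A₀ R := by
  sorry

/-! ### A8  `Main.lean` : the assembly -/

section Main

variable {F₀ : Type*} [Field F₀] [Algebra K₀ F₀] {ιa ιb : F₀ →ₐ[K₀] F} {x₀ j₀ : F₀}
  {Ow : ValuationSubring F₀} {ϖm : F} {Eα Eβ : Subfield F} {Nα Nβ : F →* F}

/-- one embedding `ι` (`= ιa` or `ιb`), one component `W` with `f (W / Ow) = 1`: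
`Through` or `Away` at the points of the charts of `ι x₀`.
(`away_of_not_le`, `through_of_le`, `loc_of_level0`, `reg_of_level0`, `mem_chart_map_iff`). -/
theorem through_or_away_of (ι : F₀ →ₐ[K₀] F) (hfin : FiniteDimensional K₀⟮ι x₀⟯ F)
    (hU : IsUnif Ow (q : F₀))
    (h₁ : IsChart Ow (q : F₀) (chart A₀.toSubring x₀))
    (h₂ : IsChart Ow (q : F₀) (chart A₀.toSubring x₀⁻¹))
    (hcomap : ∀ c, (V c).comap (ι : F₀ →+* F) = Ow)
    (hcomp : ∀ W : ValuationSubring F, W.comap (ι : F₀ →+* F) = Ow → ∃ c, W = V c)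
    (hinj : Function.Injective V) (hunif : ∀ c, ∃ ϖ : F, IsUnif (V c) ϖ) (c : Fin 3)
    (hf : ∀ y ∈ V c, ∃ y' : F₀, (V c).valuation (ι y' - y) < 1)
    (hR : IsMPt A₀ q (ι x₀) R) : Through R (V c) ∨ Away R (V c) := by
  sorry

/-- density of `R ∩ E` in `R` modulo `𝔪 (V c)` (`dense_of_level0`, `dense_loc`). -/
theorem dense_of (ι : F₀ →ₐ[K₀] F) (hU : IsUnif Ow (q : F₀))
    (h₁ : IsChart Ow (q : F₀) (chart A₀.toSubring x₀))
    (h₂ : IsChart Ow (q : F₀) (chart A₀.toSubring x₀⁻¹)) (W : ValuationSubring F)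
    (hcomap : W.comap (ι : F₀ →+* F) = Ow)
    (hf : ∀ y ∈ W, ∃ y' : F₀, W.valuation (ι y' - y) < 1)
    (E : Subfield F) (hE : ∀ f, ι f ∈ E)
    (hR : IsMPt A₀ q (ι x₀) R) (hT : Through R W) :
    ∀ r ∈ R, ∃ r' ∈ R, r' ∈ E ∧ W.valuation (r' - r) < 1 := by
  sorry

/-- the norm preserves the units (A4). -/
theorem norm_unit_of (ι : F₀ →ₐ[K₀] F) (hq : 0 < q) {E : Subfield F} {N : F →* F}
    {Va Vm Vb : ValuationSubring F} (H : Half q ϖm E N Va Vm Vb)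
    (hint : ∀ z : F₀, ∀ b ∈ chart A₀.toSubring (ι z), N b ∈ chart A₀.toSubring (ι z))
    (hR : IsMPt A₀ q (ι x₀) R) (hT : Through R Vb) :
    ∀ ε : F, RUnit R ε → RUnit R (N ε) := by
  sorry

variable (D : InstData A₀ q ιa ιb x₀ j₀ Ow V ϖm Eα Eβ Nα Nβ)

include D in
theorem InstData.isMPt_b (hR : IsMPt A₀ q (ιa x₀) R) : IsMPt A₀ q (ιb x₀) R := by
  sorry

include D in
theorem InstData.through_or_away (hR : IsMPt A₀ q (ιa x₀) R) (c : Fin 3) :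
    Through R (V c) ∨ Away R (V c) := by
  sorry

include D in
theorem InstData.qep₁ : ∀ y : F, (q : F) * y ∈ chart A₀.toSubring (ιa x₀) → (∀ c, y ∈ V c) →
    y ∈ chart A₀.toSubring (ιa x₀) := by
  sorry

include D in
theorem InstData.qep₂ : ∀ y : F, (q : F) * y ∈ chart A₀.toSubring (ιa x₀)⁻¹ → (∀ c, y ∈ V c) →
    y ∈ chart A₀.toSubring (ιa x₀)⁻¹ := by
  sorry

include D in
theorem InstData.locQep (hR : IsMPt A₀ q (ιa x₀) R) : LocQep q V R := by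
  sorry

include D in
theorem InstData.halfPtα (hR : IsMPt A₀ q (ιa x₀) R) (hT : ∀ c, Through R (V c)) :
    HalfPt Eα Nα (V 0) (V 1) R := by
  sorry

include D in
theorem InstData.halfPtβ (hR : IsMPt A₀ q (ιa x₀) R) (hT : ∀ c, Through R (V c)) :
    HalfPt Eβ Nβ (V 2) (V 1) R := by
  sorry

include D in
theorem InstData.ptHyp (hR : IsMPt A₀ q (ιa x₀) R) : PtHyp V Eα Eβ Nα Nβ R := by
  sorry

include D in
/-- **The abstract model from the modular input.** -/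
theorem model_of_instData : Model A₀ q (ιa x₀) V ϖm Eα Eβ Nα Nβ := by
  sorry

end Main

end Fermat.Agent.BAD.Model
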