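/-
Project BAD, layer INSTANCE (architect helper98).  THE LIST OF THE MODULAR STATEMENTS: one theorem
per field of `BAD.Model.InstData`, for the concrete objects of `S36/Mod/Setup.lean` (helper156),
with its OWNER.  WIP: contains `sorry`; never imported by a graded file.
-/
import Fermat.Agent.BAD.Model.WIP.Skeleton
import Fermat.Agent.S36.Mod.Setup
import Fermat.Agent.S36.ModelStatement

set_option autoImplicit false

noncomputable section

namespace Fermat.Agent.S36.Mod.Setup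

open ModularCurve Fermat.Agent.S24 Fermat.Agent.S18 Fermat.Agent.S36.BP Fermat.Agent.BAD.Model
  IntermediateField

variable {K K' : Type*} [Field K] [Field K'] [Algebra ℚ K] [Algebra ℚ K'] [Algebra K Kbar]
  [Algebra K' Kbar] (S : Setup K K')

/-- `f(z) ↦ f(z)`, level `N0` to level `N0 q q` -/
def ia : S.F0 →ₐ[K] S.F2 := S.al1.comp S.al0

/-- `f(z) ↦ f(q² z)`, level `N0` to level `N0 q q` -/
def ib : S.F0 →ₐ[K] S.F2 := S.be1.comp S.be0

/-- the three vertical valuation rings -/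
def VV : Fin 3 → ValuationSubring S.F2 := ![S.V20, S.V11, S.V02]

/-- `j` at level `N0` -/
def j0 : S.F0 := jK K S.N0

variable (hb : BaseHyp S.B S.q) (D : BaseData S.N0 S.q)

/-! ## (L0) the good level `N0`.  OWNER helper39 (BAD/LevelQ), from KL-A (`S18.isChart_chart`,
`isVert_j`, `isCoord_base`, `isUnramOutside_of_places/descent`), over the ABSTRACT field `K`. -/

theorem transc₀ : Transcendental K (D.xK K) := by sorry
theorem finite_a : FiniteDimensional K⟮S.ia (D.xK K)⟯ S.F2 := by sorry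
theorem finite_b : FiniteDimensional K⟮S.ib (D.xK K)⟯ S.F2 := by sorry
theorem unifw : IsUnif S.V0 ((S.q : ℕ) : S.F0) := by sorry
theorem const₀ : ∀ a ∈ S.B, algebraMap K S.F0 a ∈ S.V0 := by sorry
theorem x_unit₀ : S.V0.valuation (D.xK K) = 1 := by sorry
include hb in
theorem chart₁ : IsChart S.V0 ((S.q : ℕ) : S.F0) (chart S.B.toSubring (D.xK K)) := by sorry
include hb in
theorem chart₂ : IsChart S.V0 ((S.q : ℕ) : S.F0) (chart S.B.toSubring (D.xK K)⁻¹) := by sorry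

/-! ## (VAL) the three vertical valuations.  OWNER helper156 (S36/Mod). -/

theorem comap_a : ∀ c, (S.VV c).comap (S.ia : S.F0 →+* S.F2) = S.V0 := by sorry
theorem comap_b : ∀ c, (S.VV c).comap (S.ib : S.F0 →+* S.F2) = S.V0 := by sorry
theorem complete_a : ∀ W : ValuationSubring S.F2, W.comap (S.ia : S.F0 →+* S.F2) = S.V0 →
    ∃ c, W = S.VV c := by sorry
theorem complete_b : ∀ W : ValuationSubring S.F2, W.comap (S.ib : S.F0 →+* S.F2) = S.V0 →
    ∃ c, W = S.VV c := by sorry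
theorem VV_injective : Function.Injective S.VV := by sorry
theorem unif0 : IsUnif (S.VV 0) ((S.q : ℕ) : S.F2) := by sorry
theorem unif1 : IsUnif (S.VV 1) S.tau0 := by sorry
theorem unif2 : IsUnif (S.VV 2) ((S.q : ℕ) : S.F2) := by sorry
theorem ram1 : (S.VV 1).valuation S.tau0 ^ (S.q - 1) = (S.VV 1).valuation ((S.q : ℕ) : S.F2) := by
  sorry
theorem dense0a : ∀ y ∈ S.VV 0, ∃ y' : S.F0, (S.VV 0).valuation (S.ia y' - y) < 1 := by sorry
theorem dense1a : ∀ y ∈ S.VV 1, ∃ y' : S.F0, (S.VV 1).valuation (S.ia y' - y) < 1 := by sorry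
theorem dense1b : ∀ y ∈ S.VV 1, ∃ y' : S.F0, (S.VV 1).valuation (S.ib y' - y) < 1 := by sorry
theorem dense2b : ∀ y ∈ S.VV 2, ∃ y' : S.F0, (S.VV 2).valuation (S.ib y' - y) < 1 := by sorry

/-! ## (HALF) the two degeneracy maps.  OWNER helper154 (S36/Mod/HalfInst). -/

theorem normα_const : ∀ a : K, embNorm S.al1.toRingHom (algebraMap K S.F2 a) =
    algebraMap K S.F2 a ^ S.q := by sorry
theorem normβ_const : ∀ a : K, embNorm S.be1.toRingHom (algebraMap K S.F2 a) =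
    algebraMap K S.F2 a ^ S.q := by sorry
theorem halfα' : Half S.q S.tau0 S.al1.toRingHom.fieldRange (embNorm S.al1.toRingHom)
    (S.VV 0) (S.VV 1) (S.VV 2) := by sorry
theorem halfβ' : Half S.q S.tau0 S.be1.toRingHom.fieldRange (embNorm S.be1.toRingHom)
    (S.VV 2) (S.VV 1) (S.VV 0) := by sorry
/-- abstract: the norm of an integral element is integral (`Algebra.isIntegral_norm`). -/
theorem normα_int : ∀ z : S.F0, ∀ b ∈ chart S.B.toSubring (S.ia z),
    embNorm S.al1.toRingHom b ∈ chart S.B.toSubring (S.ia z) := by sorry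
theorem normβ_int : ∀ z : S.F0, ∀ b ∈ chart S.B.toSubring (S.ib z),
    embNorm S.be1.toRingHom b ∈ chart S.B.toSubring (S.ib z) := by sorry

/-! ## (INT) `j(z)` and `j(q² z)` are integral over each other.  (DICH), (SYM): the three bases. -/

theorem ib_j_mem : S.ib S.j0 ∈ chart S.B.toSubring (S.ia S.j0) := by sorry
theorem ia_j_mem : S.ia S.j0 ∈ chart S.B.toSubring (S.ib S.j0) := by sorry

/-- The relation between the base coordinate and `j`, in the form in which it is used: for every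
embedding `φ` of `F0` and every local integrally closed `R ⊇ B`. For `x = j` trivial; for
`x = h₂` (`q = 3`): `j h = (1 + 256 h)³`; for `x = h₃` (`q = 2`): `j h = (1 + 27 h) (1 + 243 h)³`. -/
def BaseRel : Prop :=
  ∀ (φ : S.F0 →ₐ[K] S.F2) (R : Subring S.F2), IsPt S.B R →
    ((φ (D.xK K) ∈ R ∨ (φ (D.xK K))⁻¹ ∈ R) → (φ S.j0 ∈ R ∨ (φ S.j0)⁻¹ ∈ rad R)) ∧
    ((φ S.j0 ∈ R ∨ (φ S.j0)⁻¹ ∈ rad R) → (φ (D.xK K) ∈ R ∨ (φ (D.xK K))⁻¹ ∈ R))

/-- from `BaseRel`, `ib_j_mem`, `ia_j_mem`, `inv_mem_rad_of_integral`. -/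
theorem sym_ab (h : S.BaseRel D) : ∀ R : Subring S.F2, IsPt S.B R →
    (S.ia (D.xK K) ∈ R ∨ (S.ia (D.xK K))⁻¹ ∈ R) → (S.ib (D.xK K) ∈ R ∨ (S.ib (D.xK K))⁻¹ ∈ R) := by
  sorry
theorem sym_ba (h : S.BaseRel D) : ∀ R : Subring S.F2, IsPt S.B R →
    (S.ib (D.xK K) ∈ R ∨ (S.ib (D.xK K))⁻¹ ∈ R) → (S.ia (D.xK K) ∈ R ∨ (S.ia (D.xK K))⁻¹ ∈ R) := by
  sorry

/-- there is a base with `BaseRel` (`nonempty_baseData_j/h2/h3` + the identities of
`Lib/Hauptmodul`). -/
theorem exists_base (haux : if S.q = 2 then 9 ∣ S.N0 else 4 ∣ S.N0) :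
    ∃ D : BaseData S.N0 S.q, S.BaseRel D := by sorry

/-! ## (ELTS) the vertical elements -/

theorem elts (haux : if S.q = 2 then 9 ∣ S.N0 else 4 ∣ S.N0) :
    ∃ T X₁ Y₁ X₂ Y₂ : S.F2, VertElts S.q S.VV T X₁ Y₁ X₂ Y₂ ∧
    T ∈ chart S.B.toSubring (S.ia S.j0) ∧
    X₁ ∈ chart S.B.toSubring (S.ia S.j0) ∧ Y₁ ∈ chart S.B.toSubring (S.ia S.j0) ∧
    X₂ ∈ chart S.B.toSubring (S.ia S.j0) ∧ Y₂ ∈ chart S.B.toSubring (S.ia S.j0) := by sorry

/-! ## (THICK) -/

theorem thick (haux : if S.q = 2 then 9 ∣ S.N0 else 4 ∣ S.N0) :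
    ∀ R : Subring S.F2, IsMPt S.B S.q (S.ia (D.xK K)) R → S.ia S.j0 ∈ R →
    (∀ c, Through R (S.VV c)) →
    ∃ z z' : S.F2, z ∈ R ∧ z' ∈ R ∧ RUnit R (z * z' / ((S.q : ℕ) : S.F2)) ∧
      (S.VV 2).valuation z < 1 ∧ (S.VV 2).valuation z' = 1 ∧ (S.VV 0).valuation z = 1 ∧
      (S.VV 1).valuation z = 1 := by sorry

/-! ## (CUSP)  OWNER helper38 (N3 CUSP-INST of helper36's ruling) + helper254 (MODEQ) -/

theorem cuspData : ∃ (c : ℕ → ℕ → K) (s' : S.F2),
    CuspData S.B S.q S.VV c (S.ia S.j0)⁻¹ s' (S.ib S.j0)⁻¹ := by sorry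

/-! ## Assembly -/

include hb in
theorem instData (haux : if S.q = 2 then 9 ∣ S.N0 else 4 ∣ S.N0) (hD : S.BaseRel D) :
    InstData S.B S.q S.ia S.ib (D.xK K) S.j0 S.V0 S.VV S.tau0
      S.al1.toRingHom.fieldRange S.be1.toRingHom.fieldRange
      (embNorm S.al1.toRingHom) (embNorm S.be1.toRingHom) where
  base := hb
  transc₀ := S.transc₀ D
  finite := S.finite_a D
  finite_b := S.finite_b D
  unifw := S.unifw
  const₀ := S.const₀
  x_unit₀ := S.x_unit₀ D
  chart₁ := S.chart₁ hb D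
  chart₂ := S.chart₂ hb D
  comap_a := S.comap_a
  comap_b := S.comap_b
  complete := S.complete_a
  complete_b := S.complete_b
  inj := S.VV_injective
  unif0 := S.unif0
  unif1 := S.unif1
  unif2 := S.unif2
  ram1 := S.ram1
  dense0a := S.dense0a
  dense1a := S.dense1a
  dense1b := S.dense1b
  dense2b := S.dense2b
  range_a := fun f => ⟨S.al0 f, rfl⟩
  range_b := fun f => ⟨S.be0 f, rfl⟩
  normα_const := S.normα_const
  normβ_const := S.normβ_const
  halfα := S.halfα'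
  halfβ := S.halfβ'
  normα_int := S.normα_int
  normβ_int := S.normβ_int
  sym_ab := S.sym_ab D hD
  sym_ba := S.sym_ba D hD
  dich := fun R hR h => (hD S.ia R hR).1 h
  elts := S.elts haux
  thick := S.thick D haux
  cuspData := S.cuspData

end Fermat.Agent.S36.Mod.Setup

namespace Fermat.Agent.S36

open Fermat.Agent.S36.Mod Fermat.Agent.S24 Fermat.Agent.BAD.Model Fermat.Agent.Lib.InertiaField

/-- OWNER helper156: a `Setup` with `B = A₀` exists (`K' = K(ζ_q)` inside `ℚ̄`, `B'` = a valuation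
ring of `K'` above `A₀`; it is a discrete valuation ring since `K'/K` is finite). -/
theorem exists_setup (K : Type) [Field K] [Algebra ℚ K] [Algebra K Qb] (A₀ : ValuationSubring K)
    (q : ℕ) [NeZero q] (N₀ : ℕ) [NeZero N₀] (hb : BP.BaseHyp A₀ q) (hq : ¬ q ∣ N₀) :
    ∃ (K' : Type) (_ : Field K') (_ : Algebra ℚ K') (_ : Algebra K' Qb) (S : Setup K K'),
      S.B = A₀ ∧ S.q = q ∧ S.N0 = N₀ := by
  sorry

theorem modelStatement : ModelStatement := by
  intro K _ _ _ A₀ q _ N₀ _ hb hq haux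
  obtain ⟨K', _, _, _, S, rfl, rfl, rfl⟩ := exists_setup K A₀ q N₀ hb hq
  obtain ⟨D, hD⟩ := S.exists_base haux
  exact ⟨_, _, _, model_of_instData (S.instData hb D haux hD)⟩

end Fermat.Agent.S36

end
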